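/-
P-DS / DS-2G (helper98): `EisCongStatement → CongruenceStatement`.

A weight-one cusp form `f` on `Γ₁(N)` with integral coefficients, multiplied by the weight-one
Eisenstein series `G ≡ 1 (mod φ)` on `Γ₁(ℓ)`, is a weight-two cusp form on `Γ₁(N ℓ)` congruent
to `f` modulo `φ`.
-/
import Fermat.Agent.H6.DS.Interfaces

set_option autoImplicit false

open UpperHalfPlane CongruenceSubgroup ModularFormClass
open scoped MatrixGroups ModularForm

namespace Fermat.Agent.H98.DS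

open Fermat.Agent.H6.DS

/-- Restriction of a cusp form to a smaller subgroup. -/
def cuspRestr {Γ Γ' : Subgroup (GL (Fin 2) ℝ)} (h : Γ' ≤ Γ) {k : ℤ} (f : CuspForm Γ k) :
    CuspForm Γ' k where
  toFun := f
  slash_action_eq' γ hγ := f.slash_action_eq' γ (h hγ)
  holo' := f.holo'
  zero_at_cusps' hc := f.zero_at_cusps' (hc.mono h)

/-- Restriction of a modular form to a smaller subgroup. -/
def modRestr {Γ Γ' : Subgroup (GL (Fin 2) ℝ)} (h : Γ' ≤ Γ) {k : ℤ} (f : ModularForm Γ k) :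
    ModularForm Γ' k where
  toFun := f
  slash_action_eq' γ hγ := f.slash_action_eq' γ (h hγ)
  holo' := f.holo'
  bdd_at_cusps' hc := f.bdd_at_cusps' (hc.mono h)

theorem coe_cuspRestr {Γ Γ' : Subgroup (GL (Fin 2) ℝ)} (h : Γ' ≤ Γ) {k : ℤ} (f : CuspForm Γ k) :
    (⇑(cuspRestr h f) : ℍ → ℂ) = ⇑f := rfl

theorem coe_modRestr {Γ Γ' : Subgroup (GL (Fin 2) ℝ)} (h : Γ' ≤ Γ) {k : ℤ}
    (f : ModularForm Γ k) : (⇑(modRestr h f) : ℍ → ℂ) = ⇑f := rfl

theorem intCast_zmod_eq_of_dvd {M N : ℕ} (h : M ∣ N) {a b : ℤ}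
    (hab : (a : ZMod N) = (b : ZMod N)) : (a : ZMod M) = (b : ZMod M) := by
  have := congrArg (ZMod.castHom h (ZMod M)) hab
  simpa using this

theorem gamma1_le_of_dvd {M N : ℕ} (h : M ∣ N) : Gamma1 N ≤ Gamma1 M := by
  intro γ hγ
  rw [Gamma1_mem] at hγ ⊢
  refine ⟨?_, ?_, ?_⟩
  · have := intCast_zmod_eq_of_dvd h (a := γ 0 0) (b := 1) (by simpa using hγ.1)
    simpa using this
  · have := intCast_zmod_eq_of_dvd h (a := γ 1 1) (b := 1) (by simpa using hγ.2.1)
    simpa using this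
  · have := intCast_zmod_eq_of_dvd h (a := γ 1 0) (b := 0) (by simpa using hγ.2.2)
    simpa using this

theorem gamma0_le_of_dvd {M N : ℕ} (h : M ∣ N) : Gamma0 N ≤ Gamma0 M := by
  intro γ hγ
  rw [Gamma0_mem] at hγ ⊢
  have := intCast_zmod_eq_of_dvd h (a := γ 1 0) (b := 0) (by simpa using hγ)
  simpa using this

theorem gamma1_map_le_of_dvd {M N : ℕ} (h : M ∣ N) :
    (Gamma1 N : Subgroup (GL (Fin 2) ℝ)) ≤ (Gamma1 M : Subgroup (GL (Fin 2) ℝ)) :=
  Subgroup.map_mono (gamma1_le_of_dvd h)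

theorem one_mem_strictPeriods_gamma1 (N : ℕ) :
    (1 : ℝ) ∈ (Gamma1 N : Subgroup (GL (Fin 2) ℝ)).strictPeriods := by
  rw [strictPeriods_Gamma1]
  exact AddSubgroup.mem_zmultiples 1

/-- The product `f G` as a cusp form of weight two and level `Γ₁(N ℓ)`. -/
noncomputable def prodForm {N ℓ : ℕ} (f : CuspForm (Gamma1 N) 1) (G : ModularForm (Gamma1 ℓ) 1) :
    CuspForm (Gamma1 (N * ℓ)) 2 :=
  CuspForm.mcast (by norm_num)
    ((cuspRestr (gamma1_map_le_of_dvd (Dvd.intro ℓ rfl)) f).mulModularForm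
      (modRestr (gamma1_map_le_of_dvd (Dvd.intro_left N rfl)) G))

theorem coe_prodForm {N ℓ : ℕ} (f : CuspForm (Gamma1 N) 1) (G : ModularForm (Gamma1 ℓ) 1) :
    (⇑(prodForm f G) : ℍ → ℂ) = ⇑f * ⇑G := rfl

theorem qExpansion_prodForm {N ℓ : ℕ} (f : CuspForm (Gamma1 N) 1)
    (G : ModularForm (Gamma1 ℓ) 1) :
    qExpansion 1 (⇑(prodForm f G) : ℍ → ℂ) = qExpansion 1 ⇑f * qExpansion 1 ⇑G := by
  rw [coe_prodForm]
  exact UpperHalfPlane.qExpansion_mul
    (ModularFormClass.analyticAt_cuspFunction_zero f one_pos (one_mem_strictPeriods_gamma1 N))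
    (ModularFormClass.analyticAt_cuspFunction_zero G one_pos (one_mem_strictPeriods_gamma1 ℓ))

theorem qCoeff_prodForm {N ℓ : ℕ} (f : CuspForm (Gamma1 N) 1) (G : ModularForm (Gamma1 ℓ) 1)
    (n : ℕ) :
    qCoeff (prodForm f G) n
      = ∑ p ∈ Finset.HasAntidiagonal.antidiagonal n, qCoeff f p.1 * qCoeff G p.2 := by
  unfold qCoeff
  rw [qExpansion_prodForm, PowerSeries.coeff_mul]

/-- **DS-2G.** -/
theorem congruence (hE : EisCongStatement) : CongruenceStatement := by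
  intro N _ f hf ℓ _ hℓ κ _ _ φ
  obtain ⟨ψ, G, hψ, hG, ⟨x₀, hx₀, hφ₀⟩, hGn⟩ := hE ℓ hℓ κ φ
  refine ⟨ψ, prodForm f G, hψ, ?_, ?_⟩
  · intro ε hε γ hγ
    have h1 := hε γ (gamma0_le_of_dvd (Dvd.intro ℓ rfl) hγ)
    have h2 := hG γ (gamma0_le_of_dvd (Dvd.intro_left N rfl) hγ)
    rw [coe_prodForm]
    have h3 : ((⇑f : ℍ → ℂ) * ⇑G) ∣[(2 : ℤ)] γ = (⇑f ∣[(1 : ℤ)] γ) * (⇑G ∣[(1 : ℤ)] γ) :=
      ModularForm.mul_slash_SL2 1 1 γ _ _
    rw [h3, h1, h2]
    ext z
    simp only [Pi.mul_apply, Pi.smul_apply, smul_eq_mul]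
    ring
  · intro n
    classical
    -- integral representatives of the coefficients of `f` and `G`
    let y : ℕ → integralClosure ℤ ℂ := fun i => ⟨qCoeff f i, hf i⟩
    have hGall : ∀ j : ℕ, ∃ x : integralClosure ℤ ℂ, (x : ℂ) = qCoeff G j ∧
        φ x = if j = 0 then 1 else 0 := by
      intro j
      by_cases hj : j = 0
      · subst hj
        exact ⟨x₀, hx₀, by simpa using hφ₀⟩
      · obtain ⟨x, hx, hφx⟩ := hGn j (Nat.one_le_iff_ne_zero.mpr hj)
        exact ⟨x, hx, by simpa [hj] using hφx⟩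
    choose x hx hφx using hGall
    refine ⟨∑ p ∈ Finset.HasAntidiagonal.antidiagonal n, y p.1 * x p.2, y n, ?_, rfl, ?_⟩
    · rw [qCoeff_prodForm]
      push_cast
      refine Finset.sum_congr rfl fun p _ => ?_
      rw [hx]
    · rw [map_sum]
      simp only [map_mul, hφx]
      rw [Finset.sum_eq_single (n, 0)]
      · simp
      · rintro ⟨i, j⟩ hij hne
        have hj : j ≠ 0 := by
          rintro rfl
          apply hne
          rw [Finset.HasAntidiagonal.mem_antidiagonal] at hij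
          simp at hij
          simp [hij]
        simp [hj]
      · intro h
        exact absurd (Finset.HasAntidiagonal.mem_antidiagonal.mpr (by simp)) h

end Fermat.Agent.H98.DS
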