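/-
P-DS / DS-2 (row 456, helper98): interfaces for the `N`-depletion (part (2c)) and the final
adapter from helper6's block (2) (`Fermat.Agent.H6.DS.CongruenceStatement`) to the architecture
statement `Fermat.Agent.H20.DS.EisCongrStatement`.
-/
import Fermat.Agent.H20.DS.Interfaces
import Fermat.Agent.H6.DS.Interfaces

set_option autoImplicit false

open UpperHalfPlane CongruenceSubgroup ModularFormClass
open scoped MatrixGroups ModularForm

namespace Fermat.Agent.H98.DS

open Fermat.Agent.H20.DS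

/-- **DS-2c-step.**  One step of the depletion: for a prime `r ∣ N` and a weight-one cusp form
`f` on `Γ₁(N)` with nebentypus `ε`, the form
`g(z) = f(z) - (1/r) ∑_{j < r} f(z + j/r)` is a cusp form on `Γ₁(N r)` with nebentypus `ε`,
and `a_n(g) = a_n(f)` if `r ∤ n`, `a_n(g) = 0` if `r ∣ n`. -/
def DepletionStepStatement : Prop :=
  ∀ (N : ℕ) [NeZero N] (ε : DirichletCharacter ℂ N) (f : CuspForm (Gamma1 N) 1),
    HasNebentypus 1 ε (⇑f) → ∀ r : ℕ, r.Prime → r ∣ N →
    ∃ g : CuspForm (Gamma1 (N * r)) 1,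
      HasNebentypus 1 (DirichletCharacter.changeLevel (Dvd.intro r rfl) ε) (⇑g) ∧
      ∀ n : ℕ, qCoeff g n = if r ∣ n then 0 else qCoeff f n

/-- **DS-2c.**  The `N`-depletion `f♭ = ∑_{(n, N) = 1} a_n q^n` of a weight-one cusp form on
`Γ₁(N)` with nebentypus `ε` is a cusp form on `Γ₁(M)` with nebentypus `ε`, for some multiple
`M` of `N` with the same prime factors. -/
def DepletionStatement : Prop :=
  ∀ (N : ℕ) [NeZero N] (ε : DirichletCharacter ℂ N) (f : CuspForm (Gamma1 N) 1),
    HasNebentypus 1 ε (⇑f) →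
    ∃ (M : ℕ) (_ : NeZero M) (hNM : N ∣ M) (g : CuspForm (Gamma1 M) 1),
      (∀ p : ℕ, p.Prime → p ∣ M → p ∣ N) ∧
      HasNebentypus 1 (DirichletCharacter.changeLevel hNM ε) (⇑g) ∧
      ∀ n : ℕ, qCoeff g n = if n.Coprime N then qCoeff f n else 0

/-- **DS-2-int.**  All coefficients `a_n`, `(n, N) = 1`, of a form as in S48 are algebraic
integers. -/
def CoprimeIntegralStatement : Prop :=
  ∀ (N : ℕ) [NeZero N] (ε : DirichletCharacter ℂ N) (f : CuspForm (Gamma1 N) 1),
    IsDSEigen N ε f → ∀ n : ℕ, n.Coprime N → IsIntegral ℤ (qCoeff f n)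

end Fermat.Agent.H98.DS
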