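/-
P-DS / DS-2 (row 456, helper98): iteration of the depletion step and the final adapter

  `NebentypusStatement → CoprimeIntegralStatement → DepletionStatement →
     Fermat.Agent.H6.DS.CongruenceStatement → Fermat.Agent.H20.DS.EisCongrStatement`.
-/
import Fermat.Agent.H98.DS.DepletionInterfaces
import Fermat.Agent.H98.DS.Congruence

set_option autoImplicit false
set_option linter.style.haveILetI false

open UpperHalfPlane CongruenceSubgroup ModularFormClass
open scoped MatrixGroups ModularForm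

namespace Fermat.Agent.H98.DS

open Fermat.Agent.H20.DS

/-! ### Iteration of the depletion step -/

theorem coprime_iff_forall_primeFactors {N : ℕ} (hN : N ≠ 0) (n : ℕ) :
    n.Coprime N ↔ ∀ r ∈ N.primeFactors, ¬ r ∣ n := by
  constructor
  · intro h r hr hrn
    have hr' := Nat.mem_primeFactors.mp hr
    have : r ∣ Nat.gcd n N := Nat.dvd_gcd hrn hr'.2.1
    rw [Nat.Coprime] at h
    rw [h] at this
    exact hr'.1.one_lt.ne' (Nat.dvd_one.mp this)
  · intro h
    by_contra hne
    obtain ⟨p, hp, hpd⟩ := Nat.exists_prime_and_dvd hne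
    exact h p (Nat.mem_primeFactors.mpr ⟨hp, (hpd.trans (Nat.gcd_dvd_right n N)), hN⟩)
      (hpd.trans (Nat.gcd_dvd_left n N))

/-- Depletion at a finite set of primes dividing `N`. -/
theorem depletion_finset (hS : DepletionStepStatement) (N : ℕ) [NeZero N]
    (ε : DirichletCharacter ℂ N) (f : CuspForm (Gamma1 N) 1) (hf : HasNebentypus 1 ε (⇑f))
    (S : Finset ℕ) (hSN : ∀ r ∈ S, r.Prime ∧ r ∣ N) :
    ∃ (M : ℕ) (_ : NeZero M) (hNM : N ∣ M) (g : CuspForm (Gamma1 M) 1),
      (∀ p : ℕ, p.Prime → p ∣ M → p ∣ N) ∧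
      HasNebentypus 1 (DirichletCharacter.changeLevel hNM ε) (⇑g) ∧
      ∀ n : ℕ, qCoeff g n = if (∀ r ∈ S, ¬ r ∣ n) then qCoeff f n else 0 := by
  classical
  induction S using Finset.induction_on with
  | empty =>
    refine ⟨N, inferInstance, dvd_refl N, f, fun p _ h => h, ?_, fun n => by simp⟩
    rwa [DirichletCharacter.changeLevel_self]
  | insert r S hr ih =>
    obtain ⟨M, hM, hNM, g, hprimes, hg, hcoeff⟩ :=
      ih (fun r' hr' => hSN r' (Finset.mem_insert_of_mem hr'))
    obtain ⟨hrp, hrN⟩ := hSN r (Finset.mem_insert_self r S)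
    obtain ⟨g', hg', hcoeff'⟩ := hS M (DirichletCharacter.changeLevel hNM ε) g hg r hrp
      (hrN.trans hNM)
    haveI : NeZero (M * r) := ⟨Nat.mul_ne_zero (NeZero.ne M) hrp.ne_zero⟩
    refine ⟨M * r, inferInstance, hNM.trans (Dvd.intro r rfl), g', ?_, ?_, ?_⟩
    · intro p hp hpd
      rcases (Nat.Prime.dvd_mul hp).1 hpd with h | h
      · exact hprimes p hp h
      · rw [(Nat.prime_dvd_prime_iff_eq hp hrp).mp h]
        exact hrN
    · rwa [DirichletCharacter.changeLevel_trans ε hNM (Dvd.intro r rfl)]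
    · intro n
      rw [hcoeff' n, hcoeff n]
      by_cases hrn : r ∣ n
      · rw [if_pos hrn, if_neg]
        intro h
        exact h r (Finset.mem_insert_self r S) hrn
      · rw [if_neg hrn]
        by_cases hSn : ∀ r' ∈ S, ¬ r' ∣ n
        · rw [if_pos hSn, if_pos]
          intro r' hr'
          rcases Finset.mem_insert.mp hr' with rfl | h
          · exact hrn
          · exact hSn r' h
        · rw [if_neg hSn, if_neg]
          intro h
          exact hSn fun r' hr' => h r' (Finset.mem_insert_of_mem hr')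

/-- **DS-2c** from the depletion step. -/
theorem depletion_of_step (hS : DepletionStepStatement) : DepletionStatement := by
  intro N _ ε f hf
  obtain ⟨M, hM, hNM, g, hprimes, hg, hcoeff⟩ := depletion_finset hS N ε f hf N.primeFactors
    (fun r hr => ⟨(Nat.mem_primeFactors.mp hr).1, (Nat.mem_primeFactors.mp hr).2.1⟩)
  refine ⟨M, hM, hNM, g, hprimes, hg, fun n => ?_⟩
  rw [hcoeff n]
  by_cases h : n.Coprime N
  · rw [if_pos h, if_pos ((coprime_iff_forall_primeFactors (NeZero.ne N) n).mp h)]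
  · rw [if_neg h, if_neg (fun h' => h ((coprime_iff_forall_primeFactors (NeZero.ne N) n).mpr h'))]

/-! ### Auxiliary facts -/

/-- Values of Dirichlet characters are algebraic integers. -/
theorem dirichlet_isIntegral {N : ℕ} [NeZero N] (χ : DirichletCharacter ℂ N) (x : ZMod N) :
    IsIntegral ℤ (χ x) := by
  by_cases hx : IsUnit x
  · obtain ⟨u, rfl⟩ := hx
    have h1 : (χ (u : ZMod N)) ^ (Nat.totient N) = 1 := by
      rw [← map_pow, ← Units.val_pow_eq_pow_val, ZMod.pow_totient, Units.val_one, map_one]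
    have hpos : 0 < Nat.totient N := Nat.totient_pos.mpr (Nat.pos_of_ne_zero (NeZero.ne N))
    exact IsIntegral.of_pow hpos (by rw [h1]; exact isIntegral_one)
  · rw [MulChar.map_nonunit χ hx]
    exact isIntegral_zero

/-- The lower right entry of an element of `Γ₀(M)` is prime to `M`. -/
theorem isCoprime_of_mem_gamma0 {M : ℕ} {γ : SL(2, ℤ)} (hγ : γ ∈ Gamma0 M) :
    IsCoprime (γ 1 1) (M : ℤ) := by
  rw [Gamma0_mem] at hγ
  obtain ⟨c', hc'⟩ := (ZMod.intCast_zmod_eq_zero_iff_dvd _ _).mp hγ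
  have hdet := Matrix.SpecialLinearGroup.det_coe γ
  rw [Matrix.det_fin_two] at hdet
  refine ⟨γ 0 0, -(γ 0 1) * c', ?_⟩
  have h10 : (γ : Matrix (Fin 2) (Fin 2) ℤ) 1 0 = (M : ℤ) * c' := hc'
  have : (γ : Matrix (Fin 2) (Fin 2) ℤ) 0 0 * (γ : Matrix (Fin 2) (Fin 2) ℤ) 1 1
      - (γ : Matrix (Fin 2) (Fin 2) ℤ) 0 1 * ((M : ℤ) * c') = 1 := by
    rw [← h10]; exact hdet
  linear_combination this

theorem gamma0_le_of_dvd' {M N : ℕ} (h : M ∣ N) : Gamma0 N ≤ Gamma0 M := by
  intro γ hγ
  rw [Gamma0_mem] at hγ ⊢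
  have := congrArg (ZMod.castHom h (ZMod M)) hγ
  simpa using this

/-- Hecke relations for the depleted coefficients. -/
theorem depleted_hecke {N : ℕ} {ε : DirichletCharacter ℂ N} {f : CuspForm (Gamma1 N) 1}
    (hf : IsDSEigen N ε f) (c : ℕ → ℂ)
    (hc : ∀ n : ℕ, c n = if n.Coprime N then qCoeff f n else 0)
    (p : ℕ) (hp : p.Prime) (hpN : ¬ p ∣ N) (n : ℕ) :
    c (p * n) + ε (p : ZMod N) * (if p ∣ n then c (n / p) else 0) = c p * c n := by
  have hpc : p.Coprime N := (Nat.Prime.coprime_iff_not_dvd hp).mpr hpN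
  by_cases hn : n.Coprime N
  · have h1 : (p * n).Coprime N := Nat.Coprime.mul_left hpc hn
    have h2 : p ∣ n → (n / p).Coprime N := fun hpn =>
      Nat.Coprime.coprime_dvd_left (Nat.div_dvd_of_dvd hpn) hn
    rw [hc (p * n), hc p, hc n, if_pos h1, if_pos hpc, if_pos hn]
    have := hf.hecke p hp hpN n
    rw [← this]
    by_cases hpn : p ∣ n
    · rw [if_pos hpn, if_pos hpn, hc (n / p), if_pos (h2 hpn)]
    · rw [if_neg hpn, if_neg hpn]
  · have h1 : ¬ (p * n).Coprime N := fun h => hn (Nat.Coprime.coprime_mul_left h)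
    have h2 : p ∣ n → ¬ (n / p).Coprime N := by
      intro hpn h
      apply hn
      have : n = p * (n / p) := (Nat.mul_div_cancel' hpn).symm
      rw [this]
      exact Nat.Coprime.mul_left hpc h
    rw [hc (p * n), hc n, if_neg h1, if_neg hn]
    by_cases hpn : p ∣ n
    · rw [if_pos hpn, hc (n / p), if_neg (h2 hpn)]
      simp
    · rw [if_neg hpn]
      simp

/-! ### The final adapter -/

/-- **DS-2** from its parts. -/
theorem eisCongr_of (h0 : NebentypusStatement) (hI : CoprimeIntegralStatement)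
    (hD : DepletionStatement) (hC : Fermat.Agent.H6.DS.CongruenceStatement) :
    EisCongrStatement := by
  classical
  intro N _ ε f hf ℓ hℓ hℓN k _ _ φ
  have hneb := h0 N ε f hf
  obtain ⟨M', hM', hNM, g, hprimes, hgneb, hgcoeff⟩ := hD N ε f hneb
  have hgint : ∀ n : ℕ, qCoeff g n ∈ integralClosure ℤ ℂ := by
    intro n
    rw [hgcoeff, mem_integralClosure_iff]
    split_ifs with h
    · exact hI N ε f hf n h
    · exact isIntegral_zero
  haveI : Fact ℓ.Prime := ⟨hℓ⟩
  have hℓ2 : ℓ ≠ 2 := by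
    rintro rfl
    exact hℓN (Dvd.intro N rfl)
  obtain ⟨ψ, h, hψ, hhneb, hhcoeff⟩ := hC M' g hgint ℓ hℓ2 k φ
  haveI : NeZero (M' * ℓ) := ⟨Nat.mul_ne_zero (NeZero.ne M') hℓ.ne_zero⟩
  have hd1 : M' ∣ M' * ℓ := Dvd.intro ℓ rfl
  have hd2 : ℓ ∣ M' * ℓ := Dvd.intro_left M' rfl
  let ε' : DirichletCharacter ℂ M' := DirichletCharacter.changeLevel hNM ε
  let Ψ : DirichletCharacter ℂ (M' * ℓ) :=
    DirichletCharacter.changeLevel hd1 ε' * DirichletCharacter.changeLevel hd2 ψ
  let b : ℕ → Zbar := fun n => ⟨qCoeff g n, hgint n⟩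
  let e : ℕ → Zbar := fun p =>
    ⟨ε (p : ZMod N), dirichlet_isIntegral ε _⟩
  -- value of `Ψ` at integers prime to the level
  have hΨ : ∀ d : ℤ, IsCoprime d ((M' * ℓ : ℕ) : ℤ) →
      Ψ ((d : ℤ) : ZMod (M' * ℓ)) = ε ((d : ℤ) : ZMod N) * ψ ((d : ℤ) : ZMod ℓ) := by
    intro d hd
    have hdM' : IsCoprime d (M' : ℤ) := by
      refine IsCoprime.of_isCoprime_of_dvd_right hd ?_
      exact_mod_cast hd1
    show (DirichletCharacter.changeLevel hd1 ε' * DirichletCharacter.changeLevel hd2 ψ) _ = _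
    rw [MulChar.mul_apply, DirichletCharacter.changeLevel_eq_cast_of_dvd' _ hd1 hd,
      DirichletCharacter.changeLevel_eq_cast_of_dvd' _ hd2 hd]
    show (DirichletCharacter.changeLevel hNM ε) _ * _ = _
    rw [DirichletCharacter.changeLevel_eq_cast_of_dvd' _ hNM hdM']
  have hNdvd : N ∣ M' * ℓ := hNM.trans hd1
  refine ⟨M' * ℓ, inferInstance, Ψ, h, fun n => φ (b n), fun p => φ (e p), ?_, ?_, ?_⟩
  · intro p hp hpd
    rcases (Nat.Prime.dvd_mul hp).1 hpd with h' | h'
    · exact Dvd.dvd.mul_right (hprimes p hp h') ℓ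
    · exact Dvd.dvd.mul_left h' N
  · refine ⟨?_, ?_, ?_, ?_, ?_⟩
    · -- nebentypus
      intro γ hγ
      have h1 := hhneb ε' (fun γ' hγ' => hgneb γ' hγ') γ hγ
      rw [h1]
      congr 1
      have hcop := isCoprime_of_mem_gamma0 hγ
      rw [hΨ _ hcop]
      congr 1
      show (DirichletCharacter.changeLevel hNM ε) _ = _
      exact DirichletCharacter.changeLevel_eq_cast_of_dvd' _ hNM
        (IsCoprime.of_isCoprime_of_dvd_right hcop (by exact_mod_cast hd1))
    · -- reduction of the coefficients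
      intro n
      obtain ⟨x, y, hx, hy, hxy⟩ := hhcoeff n
      refine ⟨x, hx, ?_⟩
      rw [hxy]
      congr 1
      exact Subtype.ext hy
    · -- reduction of the determinant
      intro p hp hpM
      have hpℓ : ¬ ℓ ∣ p := by
        intro hdiv
        have : ℓ = p := (Nat.prime_dvd_prime_iff_eq hℓ hp).mp hdiv
        exact hpM (this ▸ hd2)
      obtain ⟨x, hx, hφx⟩ := hψ p hpℓ
      have hcop : IsCoprime (p : ℤ) ((M' * ℓ : ℕ) : ℤ) :=
        Nat.isCoprime_iff_coprime.mpr ((Nat.Prime.coprime_iff_not_dvd hp).mpr hpM)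
      have hΨp := hΨ (p : ℤ) hcop
      simp only [Int.cast_natCast] at hΨp
      refine ⟨(p : Zbar) * (e p * x), ?_, ?_⟩
      · rw [hΨp]
        push_cast
        rw [hx]
      · rw [map_mul, map_mul, map_natCast]
        have : (p : k) * (φ (e p) * φ x) = φ (e p) * (φ x * (p : k)) := by ring
        rw [this, hφx, mul_one]
    · -- `abar 1 = 1`
      have : b 1 = 1 := by
        apply Subtype.ext
        show qCoeff g 1 = 1
        rw [hgcoeff, if_pos (Nat.coprime_one_left N)]
        exact hf.one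
      show φ (b 1) = 1
      rw [this, map_one]
    · -- Hecke relations
      intro p hp hpM n
      have hpN : ¬ p ∣ N := fun hdiv => hpM (hdiv.trans hNdvd)
      have key := depleted_hecke hf (fun n => qCoeff g n) hgcoeff p hp hpN n
      have key' : b (p * n) + e p * (if p ∣ n then b (n / p) else 0) = b p * b n := by
        apply Subtype.ext
        by_cases hpn : p ∣ n
        · simp only [if_pos hpn] at key ⊢
          exact key
        · simp only [if_neg hpn] at key ⊢
          push_cast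
          exact key
      have := congrArg φ key'
      rw [map_add, map_mul, map_mul] at this
      rw [← this]
      by_cases hpn : p ∣ n
      · simp only [if_pos hpn]
      · simp only [if_neg hpn, map_zero]
  · intro p hp hpNℓ
    have hpN : ¬ p ∣ N := fun hdiv => hpNℓ (Dvd.dvd.mul_right hdiv ℓ)
    have hpc : p.Coprime N := (Nat.Prime.coprime_iff_not_dvd hp).mpr hpN
    refine ⟨⟨b p, ?_, rfl⟩, ⟨e p, rfl, rfl⟩⟩
    show qCoeff g p = qCoeff f p
    rw [hgcoeff, if_pos hpc]

/-- **DS-2** (row 456) from DS-0, DS-1b-coprime, the depletion step and helper6's block (2). -/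
theorem eisCongr_of_step (h0 : NebentypusStatement) (hI : CoprimeIntegralStatement)
    (hS : DepletionStepStatement) (hE : Fermat.Agent.H6.DS.EisCongStatement) :
    EisCongrStatement :=
  eisCongr_of h0 hI (depletion_of_step hS) (congruence hE)

end Fermat.Agent.H98.DS
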