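/-
P-DS / DS-2 (row 456, helper98): final assembly of block (2).

* `eisCong_uncond : Fermat.Agent.H6.DS.EisCongStatement` (unconditional),
* `congruence_uncond : Fermat.Agent.H6.DS.CongruenceStatement` (unconditional),
* `depletion_uncond : DepletionStatement` (unconditional),
* `eisCongr : NebentypusStatement → IntegralStatement → EisCongrStatement`.
-/
import Fermat.Agent.H98.DS.EisCongr
import Fermat.Agent.H80.DS.ZetaBasics
import Fermat.Agent.H65.DS.EisOneTransform
import Fermat.Agent.H65.DS.CoprimeIntegral
import Fermat.Agent.H30.DS.Holomorphy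
import Fermat.Agent.H6.DS.CotExpansion
import Fermat.Agent.H41.DS.EisOneQExp
import Fermat.Agent.H41.DS.DepletionStep
import Fermat.Agent.H44.DS.PhiForm
import Fermat.Agent.H4.DS.EisCong

set_option autoImplicit false

namespace Fermat.Agent.H98.DS

open Fermat.Agent.H20.DS

theorem eisOneTransform_uncond : Fermat.Agent.H6.DS.EisOneTransformStatement :=
  Fermat.Agent.H65.eisOneTransform Fermat.Agent.H80.DS.zetaQuasiPeriod

theorem cotExpansion_uncond : Fermat.Agent.H6.DS.CotExpansionStatement :=
  Fermat.Agent.H6.DS.cotExpansion Fermat.Agent.H80.DS.zetaSummable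

theorem phiForm_uncond : Fermat.Agent.H6.DS.PhiFormStatement :=
  Fermat.Agent.H44.phiForm eisOneTransform_uncond Fermat.Agent.H30.DS.eisOneHolomorphic
    (Fermat.Agent.H41.DS.eisOneQExp cotExpansion_uncond)
    (Fermat.Agent.H41.DS.eisOneBounded cotExpansion_uncond eisOneTransform_uncond)

/-- Block (2), output A: the weight-one Eisenstein series `G ≡ 1 (mod φ)`. -/
theorem eisCong_uncond : Fermat.Agent.H6.DS.EisCongStatement :=
  Fermat.Agent.H4.DS.eisCong phiForm_uncond eisOneTransform_uncond

/-- Block (2), output B: congruence of weight one to weight two. -/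
theorem congruence_uncond : Fermat.Agent.H6.DS.CongruenceStatement :=
  congruence eisCong_uncond

/-- The `N`-depletion. -/
theorem depletion_uncond : DepletionStatement :=
  depletion_of_step Fermat.Agent.H41.DS.depletionStep

/-- **DS-2** (row 456): `EisCongrStatement` from DS-0 (nebentypus) and DS-1b (integrality of the
`a_p`). -/
theorem eisCongr (h0 : NebentypusStatement) (hI : IntegralStatement) : EisCongrStatement :=
  eisCongr_of h0 (Fermat.Agent.H65.coprimeIntegral hI) depletion_uncond congruence_uncond

end Fermat.Agent.H98.DS
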