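/-
P-DS / DS-2 (row 456, helper98): the one-shot depletion statement of helper6
(`Fermat.Agent.H6.DS.DepletionStatement`, level `N³`) implies `DepletionStatement`;
second form of the final adapter.
-/
import Fermat.Agent.H98.DS.EisCongr
import Fermat.Agent.H6.DS.Interfaces2

set_option autoImplicit false
set_option linter.style.haveILetI false

open UpperHalfPlane CongruenceSubgroup ModularFormClass
open scoped MatrixGroups ModularForm

namespace Fermat.Agent.H98.DS

open Fermat.Agent.H20.DS

theorem depletion_of_oneShot (h : Fermat.Agent.H6.DS.DepletionStatement) :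
    DepletionStatement := by
  intro N _ ε f hf
  obtain ⟨f', hcoeff, hneb⟩ := h N f
  haveI : NeZero (N ^ 3) := ⟨pow_ne_zero 3 (NeZero.ne N)⟩
  refine ⟨N ^ 3, inferInstance, Dvd.intro_left (N ^ 2) (by ring), f', ?_, hneb ε hf, hcoeff⟩
  intro p hp hpd
  exact hp.dvd_of_dvd_pow hpd

/-- **DS-2** (row 456) from DS-0, DS-1b-coprime, the one-shot depletion and helper6's
block (2). -/
theorem eisCongr_of_oneShot (h0 : NebentypusStatement) (hI : CoprimeIntegralStatement)
    (hD : Fermat.Agent.H6.DS.DepletionStatement) (hE : Fermat.Agent.H6.DS.EisCongStatement) :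
    EisCongrStatement :=
  eisCongr_of h0 hI (depletion_of_oneShot hD) (congruence hE)

end Fermat.Agent.H98.DS
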